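/-
S52 / Program E, package E6-(K4) (helper2): irreducibility criterion mod 3.

If the 3-division quartic of the short model `y² = x³ + a x + b`, `a = -27 c₄`, `b = -54 c₆`,
of an integral Weierstrass curve `W` with `Δ ≠ 0` has no rational root (equivalently: the monic
integer quartic `y⁴ + 18 a y² + 108 b y - 27 a²` has no integer root), then the mod-3
representation of `W` is irreducible.

This is a thin wrapper around the landed `Fermat.Agent.S51.exists_root_of_not_irreducible_three`.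
-/
import Fermat.Prelude.Def_FLTPrelim_ModularRep
import Fermat.Agent.S51.Galois

set_option autoImplicit false

open WeierstrassCurve WeierstrassCurve.Affine WeierstrassCurve.Affine.Point Polynomial

namespace Fermat.Agent.S52.H2

/-- **(K4), rational form.** No rational root of `3x⁴ + 6ax² + 12bx - a²` (`a = -27c₄`,
`b = -54c₆`) implies that the mod-3 representation is irreducible. -/
theorem modRepIsIrreducible_three_of_forall_rat_ne (W : WeierstrassCurve ℤ) (hΔ : W.Δ ≠ 0)
    (h : ∀ x : ℚ, 3 * x ^ 4 + 6 * (-27 * (W.c₄ : ℚ)) * x ^ 2 + 12 * (-54 * (W.c₆ : ℚ)) * x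
      - (-27 * (W.c₄ : ℚ)) ^ 2 ≠ 0) :
    W.ModRepIsIrreducible 3 := by
  by_contra hcon
  have hΔE : (W.map (Int.castRingHom ℚ)).Δ ≠ 0 := by
    rw [WeierstrassCurve.map_Δ]
    simpa using hΔ
  obtain ⟨x₀, hx₀⟩ := Fermat.Agent.S51.exists_root_of_not_irreducible_three _ hΔE hcon
  have hA : Fermat.Agent.S51.sA (W.map (Int.castRingHom ℚ)) = -27 * (W.c₄ : ℚ) := by
    rw [Fermat.Agent.S51.sA, WeierstrassCurve.map_c₄]; rfl
  have hB : Fermat.Agent.S51.sB (W.map (Int.castRingHom ℚ)) = -54 * (W.c₆ : ℚ) := by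
    rw [Fermat.Agent.S51.sB, WeierstrassCurve.map_c₆]; rfl
  rw [hA, hB] at hx₀
  exact h x₀ hx₀

/-- The monic integer quartic `Y⁴ + 18 a Y² + 108 b Y - 27 a²`. -/
noncomputable def quartic (a b : ℤ) : ℤ[X] :=
  X ^ 4 + C (18 * a) * X ^ 2 + C (108 * b) * X - C (27 * a ^ 2)

theorem quartic_monic (a b : ℤ) : (quartic a b).Monic := by
  unfold quartic
  monicity!

theorem quartic_eval (a b y : ℤ) :
    (quartic a b).eval y = y ^ 4 + 18 * a * y ^ 2 + 108 * b * y - 27 * a ^ 2 := by
  simp [quartic]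

theorem quartic_aeval (a b : ℤ) (y : ℚ) :
    aeval y (quartic a b) = y ^ 4 + 18 * (a : ℚ) * y ^ 2 + 108 * (b : ℚ) * y - 27 * (a : ℚ) ^ 2 := by
  simp only [quartic, map_sub, map_add, map_mul, map_pow, aeval_X, eq_intCast, map_intCast,
    map_ofNat]

/-- A rational root of the monic integer quartic is an integer root. -/
theorem exists_int_root_of_rat_root (a b : ℤ) (y : ℚ)
    (hy : y ^ 4 + 18 * (a : ℚ) * y ^ 2 + 108 * (b : ℚ) * y - 27 * (a : ℚ) ^ 2 = 0) :
    ∃ n : ℤ, (n : ℚ) = y ∧ n ^ 4 + 18 * a * n ^ 2 + 108 * b * n - 27 * a ^ 2 = 0 := by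
  have hroot : aeval y (quartic a b) = 0 := by rw [quartic_aeval]; exact hy
  obtain ⟨n, hn⟩ := isInteger_of_is_root_of_monic (quartic_monic a b) hroot
  refine ⟨n, by simpa using hn, ?_⟩
  have hn' : (n : ℚ) = y := by simpa using hn
  have : ((n ^ 4 + 18 * a * n ^ 2 + 108 * b * n - 27 * a ^ 2 : ℤ) : ℚ) = 0 := by
    push_cast
    rw [hn']
    exact hy
  exact_mod_cast this

/-- **(K4), integer form.** If the monic integer quartic `y⁴ + 18 a y² + 108 b y - 27 a²`
(`a = -27c₄`, `b = -54c₆`) has no integer root, the mod-3 representation is irreducible. -/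
theorem modRepIsIrreducible_three_of_forall_int_ne (W : WeierstrassCurve ℤ) (hΔ : W.Δ ≠ 0)
    (h : ∀ y : ℤ, y ^ 4 + 18 * (-27 * W.c₄) * y ^ 2 + 108 * (-54 * W.c₆) * y
      - 27 * (-27 * W.c₄) ^ 2 ≠ 0) :
    W.ModRepIsIrreducible 3 := by
  refine modRepIsIrreducible_three_of_forall_rat_ne W hΔ fun x hx => ?_
  obtain ⟨n, -, hn⟩ := exists_int_root_of_rat_root (-27 * W.c₄) (-54 * W.c₆) (3 * x) (by
    push_cast
    linear_combination 27 * hx)
  exact h n hn

end Fermat.Agent.S52.H2
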